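/-
FG (S19), side brick AUX (l in {2,3} level transport), generic field theory (Mathlib only).

If `r ≥ 2` pairwise distinct `F`-embeddings of a finite extension `E / F` of degree `≤ r + 1`
into a field `Ω` agree on an element `h`, then `h ∈ F`.
-/
import Mathlib

set_option autoImplicit false

namespace Fermat.Agent.S19.EmbAgree

open Module

/-- If `r ≥ 2` pairwise distinct `F`-embeddings `ψ i : E → Ω` of a finite field extension `E / F`
of degree `≤ r + 1` take the same value on `h : E`, then `h` lies in `F`. -/
theorem mem_bot_of_algHoms_agree {F E Ω : Type*} [Field F] [Field E] [Field Ω] [Algebra F E]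
    [Algebra F Ω] [FiniteDimensional F E] (r : ℕ) (hr : 2 ≤ r) (hdeg : finrank F E ≤ r + 1)
    (ψ : Fin r → (E →ₐ[F] Ω)) (hinj : Function.Injective ψ) (h : E)
    (hh : ∀ i j, ψ i h = ψ j h) : h ∈ (⊥ : IntermediateField F E) := by
  classical
  let i0 : Fin r := ⟨0, by omega⟩
  -- all `ψ i` agree on `F⟮h⟯`
  have hagree : ∀ i, (ψ i).comp (IntermediateField.adjoin F {h}).val
      = (ψ i0).comp (IntermediateField.adjoin F {h}).val := by
    intro i
    refine IntermediateField.adjoin_algHom_ext F ?_
    intro x hx
    rw [Set.mem_singleton_iff] at hx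
    subst hx
    exact hh i i0
  set K : IntermediateField F E := IntermediateField.adjoin F {h} with hK
  -- `Ω` as a `K`-algebra through `ψ i0`
  let _ : Algebra K Ω := ((ψ i0).comp K.val).toRingHom.toAlgebra
  -- the `ψ i` are `K`-algebra homomorphisms
  let Ψ : Fin r → (E →ₐ[K] Ω) := fun i =>
    { (ψ i : E →+* Ω) with
      commutes' := fun k => by
        have := congrArg (fun φ : K →ₐ[F] Ω => φ k) (hagree i)
        exact this }
  have hΨ : Function.Injective Ψ := by
    intro i j hij
    apply hinj
    ext x
    have := congrArg (fun φ : E →ₐ[K] Ω => φ x) hij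
    exact this
  have hcard : r ≤ finrank K E := by
    have h1 : Nat.card (Fin r) ≤ Nat.card (E →ₐ[K] Ω) :=
      Nat.card_le_card_of_injective Ψ hΨ
    rw [Nat.card_fin] at h1
    exact h1.trans (card_algHom_le_finrank K E Ω)
  have hmul : finrank F K * finrank K E = finrank F E := finrank_mul_finrank F K E
  have hFK : finrank F K = 1 := by
    have hpos : 0 < finrank F K := finrank_pos
    by_contra hne
    have h2 : 2 ≤ finrank F K := by omega
    have : 2 * r ≤ finrank F K * finrank K E := Nat.mul_le_mul h2 hcard
    omega
  have hbot : K = ⊥ := IntermediateField.finrank_eq_one_iff.mp hFK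
  rw [← hbot]
  exact IntermediateField.mem_adjoin_simple_self F h

end Fermat.Agent.S19.EmbAgree
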