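/-
FG (S19), side brick AUX (l in {2,3} level transport): the level inclusion
`Fb N ⊆ Fb (N * r)` (`r` prime, `r ∤ N`) is "Kummer closed": if `h ∈ Fb (N * r)` and
`h ^ n ∈ Fb N` (`n > 0`) then `h ∈ Fb N`.

Proof: the `r` conjugate embeddings of `Fb (N r)` over `Fb N` through the cusp `0`-side
(`cuspHom (T^m P)`, `P = [[1,0],[N,1]]`) are permuted by the substitution `s ↦ ζ s`, which
fixes `q`-series; an `n`-th root of a `q`-series is a constant multiple of a `q`-series.
-/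
import Fermat.Agent.S24.Cusp.Inst
import Fermat.Agent.S24.Modular.M3
import Fermat.Agent.S37.LevelPull
import Fermat.Agent.Lib.Gamma0Index
import Fermat.Agent.S18.LevelDescent
import Fermat.Agent.S19.LevelInj.EmbAgree

set_option autoImplicit false
set_option linter.unusedSectionVars false
set_option linter.style.haveILetI false

noncomputable section

namespace Fermat.Agent.S19.LevelInj

open ModularCurve AlgebraicCurve HahnSeries UpperHalfPlane
open Fermat.Agent.S24.Cusp Fermat.Agent.S24.Puiseux Fermat.Agent.S24.Modular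
open Fermat.Agent.S24
open scoped MatrixGroups

local notation "Qb" => AlgebraicClosure ℚ

section Fix

variable {N M : ℕ} [NeZero N] [NeZero M] (hNM : N ∣ M) (Q : QExpSys Qb M)
include hNM

/-- level-`N` generators are good at level `M` -/
theorem adjoin_gens_le_good :
    Algebra.adjoin Qb (DegreeGen.gens Qb N) ≤ Q.goodSubalgebra := by
  refine Algebra.adjoin_le ?_
  rintro _ ⟨y, ⟨d, hd0, hd, rfl⟩, rfl⟩
  exact Q.good_jgen d (hd.trans hNM)

/-- The cusp embedding of `g ∈ Γ₀(N)` at level `M` fixes the generator `j(q^δ)`, `δ ∣ N`. -/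
theorem cuspHom_jG_of_mem_Gamma0 (g : SL(2, ℤ)) (hg : g ∈ CongruenceSubgroup.Gamma0 N)
    (δ : ℕ) [NeZero δ] (hδ : δ ∣ N) :
    Q.cuspHom g (Q.jG δ (hδ.trans hNM)) = qExpand Qb M (jgen Qb δ) := by
  apply Q.cuspHom_eq
  have hδpos : 0 < δ := Nat.pos_of_ne_zero (NeZero.ne δ)
  obtain ⟨γ', hγ'⟩ := exists_smul_mob_of_mem_Gamma0 N δ hδpos hδ g⁻¹ (inv_mem hg)
  have e : (fun τ => Q.funOf (Q.jG δ (hδ.trans hNM)) (g⁻¹ • τ))
      = fun τ => Q.jfun (mob δ 1 0 hδpos one_pos τ) := by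
    funext τ
    rw [Q.funOf_jG]
    show Q.jfun (mob δ 1 0 hδpos one_pos (g⁻¹ • τ)) = _
    rw [hγ' τ, Q.jfun_smul]
  rw [e]
  exact Q.has_jgen δ (hδ.trans hNM)

/-- The cusp embedding of `g ∈ Γ₀(N)` at level `M` fixes the algebra generated by the
level-`N` generators. -/
theorem cuspHom_of_mem_adjoin (g : SL(2, ℤ)) (hg : g ∈ CongruenceSubgroup.Gamma0 N)
    (t : LaurentSeries Qb) (ht : t ∈ Algebra.adjoin Qb (DegreeGen.gens Qb N))
    (ht' : t ∈ Q.goodSubalgebra) :
    Q.cuspHom g ⟨t, ht'⟩ = qExpand Qb M t := by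
  induction ht using Algebra.adjoin_induction with
  | mem x hx =>
    obtain ⟨y, ⟨d, hd0, hd, rfl⟩, rfl⟩ := hx
    haveI := hd0
    exact cuspHom_jG_of_mem_Gamma0 hNM Q g hg d hd
  | algebraMap c =>
    have e : (⟨algebraMap Qb (LaurentSeries Qb) c, ht'⟩ : Q.goodSubalgebra)
        = algebraMap Qb Q.goodSubalgebra c := Subtype.ext rfl
    rw [e, AlgHom.commutes, QExpSys.qExpand_algebraMap]
  | add a b ha hb iha ihb =>
    have ha' := adjoin_gens_le_good hNM Q ha
    have hb' := adjoin_gens_le_good hNM Q hb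
    have e : (⟨a + b, ht'⟩ : Q.goodSubalgebra) = ⟨a, ha'⟩ + ⟨b, hb'⟩ := Subtype.ext rfl
    rw [e, map_add, iha ha', ihb hb', map_add]
  | mul a b ha hb iha ihb =>
    have ha' := adjoin_gens_le_good hNM Q ha
    have hb' := adjoin_gens_le_good hNM Q hb
    have e : (⟨a * b, ht'⟩ : Q.goodSubalgebra) = ⟨a, ha'⟩ * ⟨b, hb'⟩ := Subtype.ext rfl
    rw [e, map_mul, iha ha', ihb hb', map_mul]

end Fix

section Emb

variable {M : ℕ} [NeZero M] (Q : QExpSys Qb M)

theorem isFractionRing_F₀ : IsFractionRing Q.F₀ (FN M) := by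
  haveI : FaithfulSMul Q.F₀ (FN M) :=
    (faithfulSMul_iff_algebraMap_injective _ _).mpr Subtype.val_injective
  refine IsFractionRing.of_field (R := Q.F₀) (K := FN M) (fun z => ?_)
  obtain ⟨a, b, hb, hab⟩ := Q.frac z
  refine ⟨a, b, ?_⟩
  show z = (a : FN M) / (b : FN M)
  rw [eq_div_iff hb]
  exact hab

/-- The cusp embedding attached to `g`, on the whole function field. -/
def psi (g : SL(2, ℤ)) : FN M →ₐ[Qb] LaurentSeries Qb :=
  haveI := isFractionRing_F₀ Q
  IsFractionRing.liftAlgHom (g := (Q.cuspHom g).comp Q.incl)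
    ((Q.cuspHom_injective g).comp Q.incl_injective)

theorem psi_coe (g : SL(2, ℤ)) (a : Q.F₀) :
    psi Q g (a : FN M) = Q.cuspHom g (Q.incl a) := by
  haveI := isFractionRing_F₀ Q
  exact IsFractionRing.lift_algebraMap
    (g := ((Q.cuspHom g).comp Q.incl : Q.F₀ →+* LaurentSeries Qb))
    ((Q.cuspHom_injective g).comp Q.incl_injective) a

/-- Ring homomorphisms out of the function field are determined on the good part. -/
theorem ringHom_eq_of_eq_on_F₀ (φ₁ φ₂ : FN M →+* LaurentSeries Qb)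
    (h : ∀ a : Q.F₀, φ₁ (a : FN M) = φ₂ (a : FN M)) (z : FN M) : φ₁ z = φ₂ z := by
  obtain ⟨a, b, hb, hab⟩ := Q.frac z
  have h1 : φ₁ z * φ₁ (b : FN M) = φ₁ (a : FN M) := by rw [← map_mul, hab]
  have h2 : φ₂ z * φ₂ (b : FN M) = φ₂ (a : FN M) := by rw [← map_mul, hab]
  have hb1 : φ₁ (b : FN M) ≠ 0 := (map_ne_zero φ₁).mpr hb
  rw [← h b] at h2
  rw [← h a, ← h1] at h2
  exact (mul_right_cancel₀ hb1 h2).symm

/-- `T` acts on the cusp embeddings by the substitution `s ↦ ζ s`. -/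
theorem scale_pow_psi_T_pow_mul (m : ℕ) (g : SL(2, ℤ)) (z : FN M) :
    scale (Q.ζ ^ m) (psi Q (ModularGroup.T ^ m * g) z) = psi Q g z := by
  refine ringHom_eq_of_eq_on_F₀ Q
    ((scale (Q.ζ ^ m)).comp (psi Q (ModularGroup.T ^ m * g) : FN M →+* LaurentSeries Qb))
    (psi Q g : FN M →+* LaurentSeries Qb) ?_ z
  intro a
  show scale (Q.ζ ^ m) (psi Q (ModularGroup.T ^ m * g) (a : FN M)) = psi Q g (a : FN M)
  rw [psi_coe, psi_coe, Q.scale_pow_cuspHom_T_pow_mul]

/-- The identity cusp embedding is the `s`-expansion. -/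
theorem psi_one (z : FN M) : psi Q 1 z = qExpand Qb M (z : LaurentSeries Qb) := by
  refine ringHom_eq_of_eq_on_F₀ Q (psi Q 1 : FN M →+* LaurentSeries Qb)
    ((qExpand Qb M).comp (modularFunctionFieldBar M).val.toRingHom) ?_ z
  intro a
  show psi Q 1 (a : FN M) = qExpand Qb M ((a : FN M) : LaurentSeries Qb)
  rw [psi_coe, Q.cuspHom_one, Q.coe_incl]

end Emb

section FixField

variable {N M : ℕ} [NeZero N] [NeZero M] (hNM : N ∣ M) (Q : QExpSys Qb M)

/-- The cusp embeddings of `g ∈ Γ₀(N)` at level `M` restrict to the `s`-expansion on `Fb N`. -/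
theorem psi_lvl (g : SL(2, ℤ)) (hg : g ∈ CongruenceSubgroup.Gamma0 N) (f : FN N) :
    psi Q g (Fermat.Agent.S37.LevelPull.lvl hNM f) = qExpand Qb M (f : LaurentSeries Qb) := by
  have hf : (f : LaurentSeries Qb) ∈ IntermediateField.adjoin Qb (DegreeGen.gens Qb N) := by
    rw [← DegreeGen.laurentBaseChange_full_eq_adjoin]
    exact f.2
  obtain ⟨r, hr, s, hs, hfrs⟩ := IntermediateField.mem_adjoin_iff_div.mp hf
  have hmemN : ∀ t ∈ Algebra.adjoin Qb (DegreeGen.gens Qb N), t ∈ modularFunctionFieldBar N := by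
    intro t ht
    have h1 : t ∈ IntermediateField.adjoin Qb (DegreeGen.gens Qb N) :=
      IntermediateField.algebra_adjoin_le_adjoin Qb _ ht
    rw [← DegreeGen.laurentBaseChange_full_eq_adjoin] at h1
    exact h1
  have hmemM : ∀ t ∈ Algebra.adjoin Qb (DegreeGen.gens Qb N), t ∈ modularFunctionFieldBar M :=
    fun t ht => Fermat.Agent.S37.LevelPull.fb_mono hNM (hmemN t ht)
  by_cases hs0 : s = 0
  · have hf0 : f = 0 := by
      apply Subtype.ext
      rw [hfrs, hs0, div_zero]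
      rfl
    rw [hf0, map_zero, map_zero]
    show (0 : LaurentSeries Qb) = qExpand Qb M (0 : LaurentSeries Qb)
    rw [map_zero]
  · have hrg := adjoin_gens_le_good hNM Q hr
    have hsg := adjoin_gens_le_good hNM Q hs
    let a : Q.F₀ := ⟨⟨r, hmemM r hr⟩, hrg⟩
    let b : Q.F₀ := ⟨⟨s, hmemM s hs⟩, hsg⟩
    have hab : Fermat.Agent.S37.LevelPull.lvl hNM f * (b : FN M) = (a : FN M) := by
      apply Subtype.ext
      show (f : LaurentSeries Qb) * s = r
      rw [hfrs, div_mul_cancel₀ _ hs0]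
    have h1 : psi Q g (Fermat.Agent.S37.LevelPull.lvl hNM f) * psi Q g (b : FN M)
        = psi Q g (a : FN M) := by rw [← map_mul, hab]
    have ha : psi Q g (a : FN M) = qExpand Qb M r := by
      rw [psi_coe]
      exact cuspHom_of_mem_adjoin hNM Q g hg r hr hrg
    have hb : psi Q g (b : FN M) = qExpand Qb M s := by
      rw [psi_coe]
      exact cuspHom_of_mem_adjoin hNM Q g hg s hs hsg
    have h2 : qExpand Qb M (f : LaurentSeries Qb) * qExpand Qb M s = qExpand Qb M r := by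
      rw [← map_mul, hfrs, div_mul_cancel₀ _ hs0]
    have hs1 : qExpand Qb M s ≠ 0 := fun h => hs0 (qExpand_injective M (by rw [h, map_zero]))
    rw [ha, hb, ← h2] at h1
    exact mul_right_cancel₀ hs1 h1

end FixField

section Roots

/-- In `ℚ̄((s))`, two elements with the same `n`-th power differ by a constant. -/
theorem exists_const_mul_of_pow_eq {n : ℕ} (hn : 0 < n) {x y : LaurentSeries Qb} (hy : y ≠ 0)
    (h : x ^ n = y ^ n) : ∃ c : Qb, x = HahnSeries.C c * y := by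
  haveI : NeZero ((n : ℕ) : Qb) := ⟨by exact_mod_cast hn.ne'⟩
  haveI : NeZero n := ⟨hn.ne'⟩
  obtain ⟨ζ, hζ⟩ := HasEnoughRootsOfUnity.exists_primitiveRoot Qb n
  have hC : Function.Injective (HahnSeries.C : Qb →+* LaurentSeries Qb) := HahnSeries.C_injective
  have hζ' : IsPrimitiveRoot ((HahnSeries.C : Qb →+* LaurentSeries Qb) ζ) n :=
    hζ.map_of_injective hC
  have h1 : (x / y) ^ n = 1 := by rw [div_pow, h, div_self (pow_ne_zero n hy)]
  obtain ⟨i, -, hi⟩ := hζ'.eq_pow_of_pow_eq_one h1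
  refine ⟨ζ ^ i, ?_⟩
  rw [map_pow, hi, div_mul_cancel₀ _ hy]

end Roots

section Twist

variable {N M : ℕ} [NeZero N] [NeZero M] (hNM : N ∣ M) (Q : QExpSys Qb M)

/-- the substitution `s ↦ ζ^m s` fixes `s`-expansions of `q`-series -/
theorem scale_pow_qExpand (m : ℕ) (A : LaurentSeries Qb) :
    scale (Q.ζ ^ m) (qExpand Qb M A) = qExpand Qb M A := by
  rw [scale_qExpand, ← pow_mul, mul_comm, pow_mul, Q.hζ.pow_eq_one, one_pow, scale_one]

/-- If `h ^ n` lies in `Fb N`, the cusp embedding of `g ∈ Γ₀(N)` maps `h` to a constant multiple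
of its `s`-expansion. -/
theorem exists_const_psi (g : SL(2, ℤ)) (hg : g ∈ CongruenceSubgroup.Gamma0 N) {n : ℕ}
    (hn : 0 < n) (h : FN M) (h0 : h ≠ 0) (g₀ : FN N)
    (hpow : h ^ n = Fermat.Agent.S37.LevelPull.lvl hNM g₀) :
    ∃ c : Qb, psi Q g h = HahnSeries.C c * qExpand Qb M (h : LaurentSeries Qb) := by
  have hq0 : qExpand Qb M (h : LaurentSeries Qb) ≠ 0 := by
    intro hz
    apply h0
    apply Subtype.ext
    exact qExpand_injective M (by rw [hz]; exact (map_zero (qExpand Qb M)).symm)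
  refine exists_const_mul_of_pow_eq hn hq0 ?_
  have h1 : (h : LaurentSeries Qb) ^ n = (g₀ : LaurentSeries Qb) := by
    have := congrArg (fun x : FN M => (x : LaurentSeries Qb)) hpow
    simpa using this
  rw [← map_pow, hpow, psi_lvl hNM Q g hg g₀, ← map_pow, h1]

/-- The cusp embeddings of `g` and `T^m g` (`g ∈ Γ₀(N)`) agree on `h` when `h ^ n ∈ Fb N`. -/
theorem psi_T_pow_mul_eq (g : SL(2, ℤ)) (hg : g ∈ CongruenceSubgroup.Gamma0 N) {n : ℕ}
    (hn : 0 < n) (h : FN M) (h0 : h ≠ 0) (g₀ : FN N)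
    (hpow : h ^ n = Fermat.Agent.S37.LevelPull.lvl hNM g₀) (m : ℕ) :
    psi Q (ModularGroup.T ^ m * g) h = psi Q g h := by
  have hT : ModularGroup.T ∈ CongruenceSubgroup.Gamma0 N := by
    rw [Gamma0_mem_iff_dvd]
    simp [ModularGroup.T]
  have hTg : ModularGroup.T ^ m * g ∈ CongruenceSubgroup.Gamma0 N :=
    mul_mem (pow_mem hT m) hg
  obtain ⟨c, hc⟩ := exists_const_psi hNM Q g hg hn h h0 g₀ hpow
  obtain ⟨c', hc'⟩ := exists_const_psi hNM Q (ModularGroup.T ^ m * g) hTg hn h h0 g₀ hpow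
  have h1 := scale_pow_psi_T_pow_mul Q m g h
  rw [hc', map_mul, scale_C, scale_pow_qExpand, ← hc'] at h1
  exact h1

end Twist

section Cosets

/-- The parabolic element `[[1,0],[N,1]]`. -/
def Pmat (N : ℕ) : SL(2, ℤ) :=
  ⟨!![1, 0; (N : ℤ), 1], by simp [Matrix.det_fin_two]⟩

theorem Pmat_mem (N : ℕ) : Pmat N ∈ CongruenceSubgroup.Gamma0 N := by
  rw [Gamma0_mem_iff_dvd]
  simp [Pmat]

theorem coe_T_pow_mul_Pmat (N m : ℕ) :
    (ModularGroup.T ^ m * Pmat N : SL(2, ℤ)).1 = !![1 + (m : ℤ) * N, (m : ℤ); (N : ℤ), 1] := by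
  rw [Matrix.SpecialLinearGroup.coe_mul, ← zpow_natCast, ModularGroup.coe_T_zpow]
  simp [Pmat]

/-- The cosets `T^m P Γ₀(N r)`, `0 ≤ m < r`, are pairwise distinct (`r` prime, `r ∤ N`). -/
theorem eq_of_inv_mul_mem {N r : ℕ} (hN : N ≠ 0) (hr : r.Prime) (hrN : ¬ r ∣ N) {m m' : ℕ}
    (hm : m < r) (hm' : m' < r)
    (h : (ModularGroup.T ^ m * Pmat N)⁻¹ * (ModularGroup.T ^ m' * Pmat N)
      ∈ CongruenceSubgroup.Gamma0 (N * r)) : m = m' := by
  set X : SL(2, ℤ) := (ModularGroup.T ^ m * Pmat N)⁻¹ * (ModularGroup.T ^ m' * Pmat N) with hX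
  have hmul : ModularGroup.T ^ m' * Pmat N = ModularGroup.T ^ m * Pmat N * X := by
    rw [hX, mul_inv_cancel_left]
  have hmat := congrArg (fun g : SL(2, ℤ) => g.1) hmul
  simp only [Matrix.SpecialLinearGroup.coe_mul _ X] at hmat
  rw [coe_T_pow_mul_Pmat, coe_T_pow_mul_Pmat] at hmat
  have h00 := congrFun (congrFun hmat 0) 0
  have h10 := congrFun (congrFun hmat 1) 0
  simp [Matrix.mul_apply, Fin.sum_univ_two] at h00 h10
  rw [Gamma0_mem_iff_dvd] at h
  obtain ⟨c, hc⟩ := h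
  set a : ℤ := X.1 0 0 with ha
  set c0 : ℤ := X.1 1 0 with hc0
  have hc' : c0 = (N : ℤ) * r * c := by
    rw [hc0]
    have : (X 1 0 : ℤ) = ((N * r : ℕ) : ℤ) * c := hc
    rw [this]
    push_cast
    ring
  have hNz : (N : ℤ) ≠ 0 := by exact_mod_cast hN
  -- from the lower-left entry: `1 - a = r c`
  have h1 : 1 - a = (r : ℤ) * c := by
    have : (N : ℤ) * (1 - a) = (N : ℤ) * ((r : ℤ) * c) := by
      rw [hc'] at h10
      linarith
    exact mul_left_cancel₀ hNz this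
  -- from the upper-left entry: `(m' - m) N = a - 1`
  have h2 : ((m' : ℤ) - m) * N = a - 1 := by
    rw [hc'] at h00 h10
    nlinarith
  have hdvd : (r : ℤ) ∣ ((m' : ℤ) - m) * N := ⟨-c, by rw [h2]; linarith⟩
  have hcop : IsCoprime (r : ℤ) (N : ℤ) := by
    rw [Int.isCoprime_iff_gcd_eq_one, Int.gcd_natCast_natCast]
    exact (Nat.Prime.coprime_iff_not_dvd hr).mpr hrN
  have hdvd' : (r : ℤ) ∣ (m' : ℤ) - m := hcop.dvd_of_dvd_mul_right hdvd
  have habs : |(m' : ℤ) - m| < (r : ℤ) := by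
    rw [abs_lt]
    constructor <;> omega
  have := Int.eq_zero_of_abs_lt_dvd hdvd' habs
  omega

end Cosets

section Degree

open scoped IntermediateField

/-- `[Fb (N r) : Fb N] = r + 1` for a prime `r ∤ N`. -/
theorem finrank_lvl (N r : ℕ) [NeZero N] [NeZero r] (hr : r.Prime) (hrN : ¬ r ∣ N) :
    letI := (IntermediateField.inclusion
      (Fermat.Agent.S37.LevelPull.fb_mono (Dvd.intro r rfl : N ∣ N * r))).toRingHom.toAlgebra
    Module.finrank (FN N) (FN (N * r)) = r + 1 := by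
  have hNM : N ∣ N * r := Dvd.intro r rfl
  have h := Fermat.Agent.S18.LevelDescent.finrank_adjoin_simple_mul
    (modularFunctionFieldBar N) (modularFunctionFieldBar (N * r))
    (Fermat.Agent.S37.LevelPull.fb_mono hNM) (jF N)
  have hj : IntermediateField.inclusion (Fermat.Agent.S37.LevelPull.fb_mono hNM) (jF N)
      = jF (N * r) := Subtype.ext rfl
  rw [hj, finrank_jF, finrank_jF,
    Fermat.Agent.Lib.Gamma0Count.dedekindPsi_mul_prime_of_not_dvd N r (NeZero.ne N) hr hrN] at h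
  have hpos : 0 < dedekindPsi N := by
    have h1 := finrank_jF N
    haveI := finite_jF N
    rw [← h1]
    exact Module.finrank_pos
  rw [mul_comm (r + 1)] at h
  exact (Nat.eq_of_mul_eq_mul_left hpos h).symm

end Degree

section Main

/-- **Kummer closedness of the level inclusion.**  For a prime `r ∤ N`: if `h ∈ Fb (N r)` and
`h ^ n ∈ Fb N` with `n > 0`, then `h ∈ Fb N`. -/
theorem kummerClosed (N r : ℕ) [NeZero N] [NeZero r] (hr : r.Prime) (hrN : ¬ r ∣ N) {n : ℕ}
    (hn : 0 < n) (h : FN (N * r)) (g₀ : FN N)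
    (hpow : h ^ n = Fermat.Agent.S37.LevelPull.lvl (Dvd.intro r rfl : N ∣ N * r) g₀) :
    ∃ h' : FN N, Fermat.Agent.S37.LevelPull.lvl (Dvd.intro r rfl : N ∣ N * r) h' = h := by
  classical
  by_cases h0 : h = 0
  · exact ⟨0, by rw [h0, map_zero]⟩
  have hNM : N ∣ N * r := Dvd.intro r rfl
  let Q : QExpSys Qb (N * r) := qExpSys (N * r)
  letI algE : Algebra (FN N) (FN (N * r)) :=
    (IntermediateField.inclusion (Fermat.Agent.S37.LevelPull.fb_mono hNM)).toRingHom.toAlgebra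
  letI algΩ : Algebra (FN N) (LaurentSeries Qb) :=
    ((qExpand Qb (N * r)).comp (modularFunctionFieldBar N).val.toRingHom).toAlgebra
  have hdeg : Module.finrank (FN N) (FN (N * r)) = r + 1 := finrank_lvl N r hr hrN
  haveI : Module.Finite (FN N) (FN (N * r)) :=
    Module.finite_of_finrank_pos (by rw [hdeg]; omega)
  -- the `r` embeddings
  let ψ : Fin r → (FN (N * r) →ₐ[FN N] LaurentSeries Qb) := fun i =>
    { (psi Q (ModularGroup.T ^ (i : ℕ) * Pmat N) : FN (N * r) →+* LaurentSeries Qb) with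
      commutes' := fun f =>
        psi_lvl hNM Q (ModularGroup.T ^ (i : ℕ) * Pmat N)
          (mul_mem (pow_mem (by rw [Gamma0_mem_iff_dvd]; simp [ModularGroup.T]) _) (Pmat_mem N))
          f }
  have hψ : ∀ (i : Fin r) (z : FN (N * r)),
      ψ i z = psi Q (ModularGroup.T ^ (i : ℕ) * Pmat N) z := fun _ _ => rfl
  have hinj : Function.Injective ψ := by
    intro i j hij
    have hMM : jgen Qb (N * r) ∈ modularFunctionFieldBar (N * r) :=
      coeffEmb_mem_laurentBaseChange Qb (jqd_mem_full (N * r) dvd_rfl)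
    let J : Q.F₀ := ⟨⟨jgen Qb (N * r), hMM⟩, Q.good_jgen (N * r) dvd_rfl⟩
    have hJ : Q.incl J = Q.jG (N * r) dvd_rfl := Subtype.ext rfl
    have h1 := congrArg (fun φ : FN (N * r) →ₐ[FN N] LaurentSeries Qb => φ (J : FN (N * r))) hij
    simp only [hψ, psi_coe, hJ] at h1
    have h2 := Q.mem_Gamma0_of_cuspHom_eq _ _ h1
    exact Fin.ext (eq_of_inv_mul_mem (NeZero.ne N) hr hrN i.2 j.2 h2)
  have hagree : ∀ i j, ψ i h = ψ j h := by
    intro i j
    rw [hψ, hψ, psi_T_pow_mul_eq hNM Q (Pmat N) (Pmat_mem N) hn h h0 g₀ hpow,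
      psi_T_pow_mul_eq hNM Q (Pmat N) (Pmat_mem N) hn h h0 g₀ hpow]
  have hmem := Fermat.Agent.S19.EmbAgree.mem_bot_of_algHoms_agree r hr.two_le hdeg.le ψ hinj h
    hagree
  obtain ⟨f, hf⟩ := IntermediateField.mem_bot.mp hmem
  exact ⟨f, hf⟩

end Main

end Fermat.Agent.S19.LevelInj
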