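/-
FG (S19), side brick AUX (l in {2,3} level transport):
the pull-back `JZero N → JZero M` (`N ∣ M`) along the inclusion of function fields, its
Galois-equivariance, and its injectivity on torsion for `M = N * r`, `r` prime, `r ∤ N`.
-/
import Fermat.Agent.S19.LevelInj.KummerClosed
import Fermat.Agent.S24.FF.Residue

set_option autoImplicit false
set_option linter.unusedSectionVars false
set_option linter.style.haveILetI false

noncomputable section

namespace Fermat.Agent.S19.LevelInj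

open ModularCurve AlgebraicCurve HahnSeries
open Fermat.Agent.S24.Modular Fermat.Agent.S24
open Fermat.Agent.S37.LevelPull Fermat.Agent.S37.Kummer Fermat.Agent.S30
open scoped IntermediateField

local notation "Qb" => AlgebraicClosure ℚ
local notation "Gq" => (AlgebraicClosure ℚ ≃ₐ[ℚ] AlgebraicClosure ℚ)

section Const

variable {K F : Type*} [Field K] [Field F] [Algebra K F] [IsAlgClosed K] [CharZero K]
  [Algebra.EssFiniteType K F]

/-- A function without zeros and poles is constant. -/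
theorem exists_const_of_ord_eq_zero (htr : Algebra.trdeg K F = 1) {u : F}
    (h : ∀ v : Place K F, v.ord u = 0) : ∃ c : K, algebraMap K F c = u := by
  by_contra hne
  have hu : u ∉ Set.range (algebraMap K F) := fun ⟨c, hc⟩ => hne ⟨c, hc⟩
  have htrans := FF.transcendental_of_not_mem_range hu
  have hsum := FF.sum_ord_zeros htr htrans 0
  haveI : Module.Finite K⟮u⟯ F := FF.finite_adjoin_simple htr htrans
  have hempty : {v : Place K F | 0 < v.ord (u - algebraMap K F 0)} = ∅ := by
    ext v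
    simp [h v]
  rw [hempty, finsum_mem_empty] at hsum
  have hpos : 0 < Module.finrank K⟮u⟯ F := Module.finrank_pos
  have : (Module.finrank K⟮u⟯ F : ℤ) = 0 := hsum.symm
  omega

end Const

section PullPic

variable {N M : ℕ} [NeZero N] [NeZero M] (hNM : N ∣ M)

theorem pull_mem_degZero {D : Divisor Qb (Fb N)}
    (hD : D ∈ Divisor.degZero (K := Qb) (F := Fb N)) :
    pull hNM D ∈ Divisor.degZero (K := Qb) (F := Fb M) := by
  haveI := HeckeInputs.hasPrincipalDivisors_bar M
  exact Divisor.pullbackAlong_mem_degZero (lvl hNM) (lvl_isIntegral hNM)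
    (Fermat.Agent.Lib.FFNorm.fundamentalIdentityAlong _ _ (HeckeInputs.trdeg_bar N)
      (HeckeInputs.trdeg_bar M)) hD

theorem pull_isPrincipal {D : Divisor Qb (Fb N)} (hD : D.IsPrincipal) :
    (pull hNM D).IsPrincipal := by
  haveI := HeckeInputs.hasPrincipalDivisors_bar M
  exact Divisor.isPrincipal_pullbackAlong (lvl hNM) (lvl_isIntegral hNM) hD

/-- The pull-back on degree-zero divisors. -/
def pullDegZero : Divisor.degZero (K := Qb) (F := Fb N) →+ Divisor.degZero (K := Qb) (F := Fb M) :=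
  ((pull hNM).comp (Divisor.degZero (K := Qb) (F := Fb N)).subtype).codRestrict _
    (fun D => pull_mem_degZero hNM D.2)

@[simp]
theorem coe_pullDegZero (D : Divisor.degZero (K := Qb) (F := Fb N)) :
    (pullDegZero hNM D : Divisor Qb (Fb M)) = pull hNM (D : Divisor Qb (Fb N)) := rfl

/-- **The level pull-back** `J₀(N) → J₀(M)`, `N ∣ M`. -/
def pullPic : JZero N →+ JZero M :=
  QuotientAddGroup.map _ _ (pullDegZero hNM) (by
    rintro ⟨D, hD0⟩ hD
    simp only [AddSubgroup.mem_addSubgroupOf, AddSubgroup.mem_comap] at hD ⊢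
    exact pull_isPrincipal hNM hD)

theorem pullPic_mk (D : Divisor.degZero (K := Qb) (F := Fb N)) :
    pullPic hNM (Pic0.mk D) = Pic0.mk (pullDegZero hNM D) := rfl

/-- The level pull-back is Galois-equivariant. -/
theorem pullPic_smul (σ : Gq) (x : JZero N) : pullPic hNM (σ • x) = σ • pullPic hNM x := by
  obtain ⟨D, rfl⟩ := Pic0.mk_surjective x
  rw [galois_smul_pic0_def, SemilinearAut.pic0_smul_mk, pullPic_mk, pullPic_mk,
    galois_smul_pic0_def, SemilinearAut.pic0_smul_mk]
  refine congrArg Pic0.mk (Subtype.ext ?_)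
  rw [coe_pullDegZero, SemilinearAut.coe_degZeroSMulHom, SemilinearAut.coe_degZeroSMulHom,
    coe_pullDegZero]
  exact pull_gD hNM σ (D : Divisor Qb (Fb N))

/-- Every place of `Fb N` has a place of `Fb M` above it with nonzero ramification index, and
the pull-back of divisors is injective. -/
theorem eq_of_pull_eq {D D' : Divisor Qb (Fb N)}
    (h : ∀ w : Place Qb (Fb M), pull hNM D w = pull hNM D' w) : D = D' := by
  classical
  haveI := HeckeInputs.hasPrincipalDivisors_bar M
  have hFI := Fermat.Agent.Lib.FFNorm.fundamentalIdentityAlong (lvl hNM) (lvl_isIntegral hNM)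
    (HeckeInputs.trdeg_bar N) (HeckeInputs.trdeg_bar M)
  have hfin := Fermat.Agent.Lib.FFNorm.finiteAlong (lvl hNM) (HeckeInputs.trdeg_bar N)
    (HeckeInputs.trdeg_bar M)
  have hpos : 0 < finrankAlong Qb (lvl hNM) := by
    letI := algebraAlong (lvl hNM)
    haveI : Module.Finite (Fb N) (Fb M) := hfin
    exact Module.finrank_pos
  ext v
  -- a place above `v`
  have hdeg : Divisor.degree (pull hNM (Finsupp.single v (1 : ℤ))) ≠ 0 := by
    show Divisor.degree (Divisor.pullbackAlong (lvl hNM) (lvl_isIntegral hNM) _) ≠ 0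
    rw [Divisor.degree_pullbackAlong _ _ hFI, Divisor.degree_single,
      FF.deg_eq_one (HeckeInputs.trdeg_bar N) v]
    simp
    omega
  have hne : pull hNM (Finsupp.single v (1 : ℤ)) ≠ 0 := by
    intro h0
    rw [h0, map_zero] at hdeg
    exact hdeg rfl
  obtain ⟨w, hw⟩ : ∃ w : Place Qb (Fb M), pull hNM (Finsupp.single v (1 : ℤ)) w ≠ 0 := by
    by_contra hcon
    simp only [not_exists, not_not] at hcon
    exact hne (Finsupp.ext hcon)
  have hw' := hw
  change Divisor.pullbackAlong (lvl hNM) (lvl_isIntegral hNM) _ w ≠ 0 at hw'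
  rw [Divisor.pullbackAlong_apply] at hw'
  have he : (Place.ramificationIndexAlong (lvl hNM) w : ℤ) ≠ 0 := left_ne_zero_of_mul hw'
  have hv : w.restrictAlong (lvl hNM) (lvl_isIntegral hNM) = v := by
    by_contra hvne
    apply hw'
    rw [Finsupp.single_apply, if_neg (fun h => hvne h.symm), mul_zero]
  have h1 := h w
  change Divisor.pullbackAlong (lvl hNM) (lvl_isIntegral hNM) D w
    = Divisor.pullbackAlong (lvl hNM) (lvl_isIntegral hNM) D' w at h1
  rw [Divisor.pullbackAlong_apply, Divisor.pullbackAlong_apply, hv] at h1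
  exact mul_left_cancel₀ he h1

end PullPic

section Inj

/-- **Injectivity of the level pull-back on torsion**, `M = N * r`, `r` prime, `r ∤ N`. -/
theorem eq_zero_of_pullPic_eq_zero (N r : ℕ) [NeZero N] [NeZero r] (hr : r.Prime) (hrN : ¬ r ∣ N)
    {m : ℕ} (hm : 0 < m) (x : JZero N) (hx : (m : ℤ) • x = 0)
    (hpull : pullPic (Dvd.intro r rfl : N ∣ N * r) x = 0) : x = 0 := by
  have hNM : N ∣ N * r := Dvd.intro r rfl
  haveI := HeckeInputs.hasPrincipalDivisors_bar N
  haveI := HeckeInputs.hasPrincipalDivisors_bar (N * r)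
  obtain ⟨D, rfl⟩ := Pic0.mk_surjective x
  -- `m D = div f`
  have hx' : ((m : ℤ) • D : Divisor.degZero (K := Qb) (F := Fb N)) ∈
      (Divisor.principal (K := Qb) (F := Fb N)).addSubgroupOf (Divisor.degZero (K := Qb) (F := Fb N)) :=
    (QuotientAddGroup.eq_zero_iff _).mp hx
  obtain ⟨f, hf0, hf⟩ : ((m : ℤ) • (D : Divisor Qb (Fb N))).IsPrincipal := hx'
  -- `pull D = div h`
  have hp' : pullDegZero hNM D ∈
      (Divisor.principal (K := Qb) (F := Fb (N * r))).addSubgroupOf
        (Divisor.degZero (K := Qb) (F := Fb (N * r))) :=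
    (QuotientAddGroup.eq_zero_iff _).mp hpull
  obtain ⟨h, hh0, hh⟩ : (pull hNM (D : Divisor Qb (Fb N))).IsPrincipal := hp'
  have hmz : (m : ℤ) ≠ 0 := by exact_mod_cast hm.ne'
  -- `h ^ m` and `f` have the same divisor at level `N r`
  have hord : ∀ w : Place Qb (Fb (N * r)), w.ord (h ^ m) = w.ord (lvl hNM f) := by
    intro w
    rw [← zpow_natCast, Place.ord_zpow, ← hh w, ← pull_apply_eq_ord hNM hf w, map_zsmul]
    rfl
  have hlf0 : lvl hNM f ≠ 0 := (map_ne_zero _).mpr hf0
  obtain ⟨c, hc⟩ := exists_const_of_ord_eq_zero (HeckeInputs.trdeg_bar (N * r))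
    (u := h ^ m / lvl hNM f) (fun w => by
      rw [div_eq_mul_inv, w.ord_mul (pow_ne_zero m hh0) (inv_ne_zero hlf0), Place.ord_inv,
        hord w, add_neg_cancel])
  have hc0 : c ≠ 0 := by
    rintro rfl
    rw [map_zero] at hc
    exact div_ne_zero (pow_ne_zero m hh0) hlf0 hc.symm
  obtain ⟨c₁, hc₁⟩ := IsAlgClosed.exists_pow_nat_eq c hm
  have hc₁0 : c₁ ≠ 0 := by
    rintro rfl
    rw [zero_pow hm.ne'] at hc₁
    exact hc0 hc₁.symm
  have hcF : algebraMap Qb (Fb (N * r)) c₁ ≠ 0 := (map_ne_zero _).mpr hc₁0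
  -- `h₁ = h / c₁` has `h₁ ^ m = f`
  have hpow : (h * (algebraMap Qb (Fb (N * r)) c₁)⁻¹) ^ m = lvl hNM f := by
    rw [mul_pow, inv_pow, ← map_pow, hc₁, hc, mul_inv_eq_iff_eq_mul₀ (div_ne_zero (pow_ne_zero m hh0) hlf0),
      mul_div_cancel₀ _ hlf0]
  obtain ⟨h', hh'⟩ := kummerClosed N r hr hrN hm _ f hpow
  have hh'0 : h' ≠ 0 := by
    rintro rfl
    rw [map_zero] at hh'
    exact mul_ne_zero hh0 (inv_ne_zero hcF) hh'.symm
  -- the divisor of `h'`
  obtain ⟨D', hD', -⟩ := HasPrincipalDivisors.exists_divisor (K := Qb) h' hh'0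
  have hDD : (D : Divisor Qb (Fb N)) = D' := by
    apply eq_of_pull_eq hNM
    intro w
    rw [pull_apply_eq_ord hNM hD' w]
    have h1 : (m : ℤ) * w.ord (lvl hNM h') = (m : ℤ) * pull hNM (D : Divisor Qb (Fb N)) w := by
      rw [← Place.ord_zpow, zpow_natCast, hh', hpow, ← pull_apply_eq_ord hNM hf w, map_zsmul]
      rfl
    exact (mul_left_cancel₀ hmz h1).symm
  refine (QuotientAddGroup.eq_zero_iff _).mpr ?_
  show (D : Divisor Qb (Fb N)) ∈ Divisor.principal
  rw [hDD]
  exact ⟨h', hh'0, hD'⟩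

end Inj

section Aux

/-- **The auxiliary level for `ℓ ∈ {2, 3}`.**  For `ℓ ∈ {2, 3}` not dividing `p` there is a level
`M` prime to `ℓ`, divisible by `2` or `3`, and a Galois-equivariant additive map
`J₀(p) → J₀(M)` which is injective on `ℓ^k`-torsion (the identity if `6 / ℓ` divides `p`, the
level pull-back to `p * (6 / ℓ)` otherwise). -/
theorem exists_aux_map (p : ℕ) [NeZero p] (ℓ : ℕ) (hℓ : ℓ = 2 ∨ ℓ = 3) (hℓp : ¬ ℓ ∣ p) (k : ℕ) :
    ∃ (M : ℕ) (_ : NeZero M), ¬ ℓ ∣ M ∧ (2 ∣ M ∨ 3 ∣ M) ∧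
      ∃ φ : JZero p →+ JZero M, (∀ (σ : Gq) (x : JZero p), φ (σ • x) = σ • φ x) ∧
        ∀ x : JZero p, ((ℓ : ℤ) ^ k) • x = 0 → φ x = 0 → x = 0 := by
  have key : ∀ r : ℕ, r.Prime → ℓ.Prime → r ≠ ℓ → (r = 2 ∨ r = 3) →
      ∃ (M : ℕ) (_ : NeZero M), ¬ ℓ ∣ M ∧ (2 ∣ M ∨ 3 ∣ M) ∧
        ∃ φ : JZero p →+ JZero M, (∀ (σ : Gq) (x : JZero p), φ (σ • x) = σ • φ x) ∧
          ∀ x : JZero p, ((ℓ : ℤ) ^ k) • x = 0 → φ x = 0 → x = 0 := by
    intro r hr hℓprime hrℓ hr23
    by_cases hrp : r ∣ p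
    · refine ⟨p, inferInstance, hℓp, ?_, AddMonoidHom.id _, fun _ _ => rfl, fun x _ hx => hx⟩
      rcases hr23 with rfl | rfl
      · exact Or.inl hrp
      · exact Or.inr hrp
    · haveI : NeZero r := ⟨hr.ne_zero⟩
      refine ⟨p * r, inferInstance, ?_, ?_, pullPic (Dvd.intro r rfl : p ∣ p * r),
        fun σ x => pullPic_smul _ σ x, ?_⟩
      · intro hdvd
        rcases (Nat.Prime.dvd_mul hℓprime).mp hdvd with h | h
        · exact hℓp h
        · exact hrℓ ((Nat.prime_dvd_prime_iff_eq hℓprime hr).mp h).symm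
      · rcases hr23 with rfl | rfl
        · exact Or.inl (Dvd.intro_left p rfl)
        · exact Or.inr (Dvd.intro_left p rfl)
      · intro x hx hpull
        have hpos : 0 < ℓ ^ k := pow_pos hℓprime.pos k
        refine eq_zero_of_pullPic_eq_zero p r hr hrp hpos x ?_ hpull
        rw [Nat.cast_pow]
        exact hx
  rcases hℓ with rfl | rfl
  · exact key 3 Nat.prime_three Nat.prime_two (by decide) (Or.inr rfl)
  · exact key 2 Nat.prime_two Nat.prime_three (by decide) (Or.inl rfl)

end Aux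

end Fermat.Agent.S19.LevelInj
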