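/-
FG (S19), side brick AUX (l in {2,3} level transport), packaged on the frozen carriers
`↥(Submodule.torsionBy ℤ (JZero p) (ℓ ^ k))` with the Galois action `HopfOrder.torsAct`.
-/
import Fermat.Agent.S19.LevelInj.PullPic
import Fermat.Agent.S19.HopfOrder.Frozen

set_option autoImplicit false

noncomputable section

namespace Fermat.Agent.S19.LevelInj

open ModularCurve
open Fermat.Agent.S19.HopfOrder

local notation "Qb" => AlgebraicClosure ℚ
local notation "Gq" => (AlgebraicClosure ℚ ≃ₐ[ℚ] AlgebraicClosure ℚ)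

/-- An additive map induces a map on `n`-torsion. -/
def torsMap {A B : Type*} [AddCommGroup A] [AddCommGroup B] (φ : A →+ B) (n : ℤ) :
    ↥(Submodule.torsionBy ℤ A n) →+ ↥(Submodule.torsionBy ℤ B n) where
  toFun x := ⟨φ (x : A), by
    rw [Submodule.mem_torsionBy_iff, ← map_zsmul, (Submodule.mem_torsionBy_iff _ _).mp x.2,
      map_zero]⟩
  map_zero' := Subtype.ext (map_zero φ)
  map_add' x y := Subtype.ext (map_add φ (x : A) (y : A))

@[simp]
theorem coe_torsMap {A B : Type*} [AddCommGroup A] [AddCommGroup B] (φ : A →+ B) (n : ℤ)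
    (x : ↥(Submodule.torsionBy ℤ A n)) : ((torsMap φ n x : _) : B) = φ (x : A) := rfl

/-- **AUX on the frozen carriers.**  For `ℓ ∈ {2, 3}` not dividing `p` there is a level `M` prime
to `ℓ`, divisible by `2` or `3`, and an injective, Galois-equivariant additive map
`J₀(p)[ℓ^k] → J₀(M)[ℓ^k]`. -/
theorem exists_aux_tors (p : ℕ) [NeZero p] (ℓ : ℕ) (hℓ : ℓ = 2 ∨ ℓ = 3) (hℓp : ¬ ℓ ∣ p) (k : ℕ) :
    ∃ (M : ℕ) (_ : NeZero M), ¬ ℓ ∣ M ∧ (2 ∣ M ∨ 3 ∣ M) ∧
      ∃ φ : ↥(Submodule.torsionBy ℤ (JZero p) ((ℓ : ℤ) ^ k)) →+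
          ↥(Submodule.torsionBy ℤ (JZero M) ((ℓ : ℤ) ^ k)),
        Function.Injective φ ∧
        ∀ (σ : Gq) (x : ↥(Submodule.torsionBy ℤ (JZero p) ((ℓ : ℤ) ^ k))),
          φ (torsAct ((ℓ : ℤ) ^ k) σ x) = torsAct ((ℓ : ℤ) ^ k) σ (φ x) := by
  obtain ⟨M, hM, h1, h2, φ, hφσ, hφ0⟩ := exists_aux_map p ℓ hℓ hℓp k
  refine ⟨M, hM, h1, h2, torsMap φ ((ℓ : ℤ) ^ k), ?_, ?_⟩
  · rw [injective_iff_map_eq_zero]
    intro x hx
    apply Subtype.ext
    have hx' : φ (x : JZero p) = 0 := congrArg Subtype.val hx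
    exact hφ0 (x : JZero p) ((Submodule.mem_torsionBy_iff _ _).mp x.2) hx'
  · intro σ x
    apply Subtype.ext
    rw [coe_torsMap, coe_torsAct, coe_torsAct, coe_torsMap]
    exact hφσ σ (x : JZero p)

end Fermat.Agent.S19.LevelInj
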